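import Fermat.Agent.Arith.Density.DegreeOne

/-!
# Dirichlet series with a logarithmic singularity at `1`
-/

set_option autoImplicit false

noncomputable section

namespace Fermat.Agent.Arith.Density

open scoped Topology NumberField
open Filter

/-- `∑ c(n) n^{-s} = a · log (1/(s-1)) + O(1)` as `s → 1⁺`. -/
def HasLogPole (c : ℕ → ℝ) (a : ℝ) : Prop :=
  ∃ C : ℝ, ∀ᶠ s in 𝓝[>] (1 : ℝ),
    Summable (fun n : ℕ => c n * (n : ℝ) ^ (-s)) ∧
      |(∑' n : ℕ, c n * (n : ℝ) ^ (-s)) + a * Real.log (s - 1)| ≤ C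

namespace HasLogPole

variable {c c' : ℕ → ℝ} {a a' : ℝ}

theorem congr (h : HasLogPole c a) (hc : ∀ n, c n = c' n) (ha : a = a') : HasLogPole c' a' := by
  rwa [← funext hc, ← ha]

/-- The zero series has singularity of weight zero. -/
theorem zero : HasLogPole (fun _ => 0) 0 :=
  ⟨0, Eventually.of_forall fun s => by simp [summable_zero]⟩

/-- Singularity weights add. -/
theorem add (h : HasLogPole c a) (h' : HasLogPole c' a') :
    HasLogPole (fun n => c n + c' n) (a + a') := by
  obtain ⟨C, hC⟩ := h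
  obtain ⟨C', hC'⟩ := h'
  refine ⟨C + C', ?_⟩
  filter_upwards [hC, hC'] with s ⟨h1, h2⟩ ⟨h3, h4⟩
  simp only [add_mul]
  refine ⟨h1.add h3, ?_⟩
  rw [h1.tsum_add h3]
  calc _ = |((∑' n, c n * (n : ℝ) ^ (-s)) + a * Real.log (s - 1)) +
        ((∑' n, c' n * (n : ℝ) ^ (-s)) + a' * Real.log (s - 1))| := by ring_nf
    _ ≤ _ := (abs_add_le _ _).trans (add_le_add h2 h4)

/-- Singularity weights scale with the coefficients. -/
theorem smul (h : HasLogPole c a) (r : ℝ) : HasLogPole (fun n => r * c n) (r * a) := by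
  obtain ⟨C, hC⟩ := h
  refine ⟨|r| * C, ?_⟩
  filter_upwards [hC] with s ⟨h1, h2⟩
  simp only [mul_assoc]
  refine ⟨h1.mul_left r, ?_⟩
  rw [tsum_mul_left, ← mul_add, abs_mul]
  exact mul_le_mul_of_nonneg_left h2 (abs_nonneg r)

/-- Singularity weights subtract. -/
theorem sub (h : HasLogPole c a) (h' : HasLogPole c' a') :
    HasLogPole (fun n => c n - c' n) (a - a') :=
  (h.add (h'.smul (-1))).congr (fun n => by ring) (by ring)

/-- The singularity weight of a finite sum of series is the sum of the weights. -/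
theorem finset_sum {ι : Type*} (F : Finset ι) {c : ι → ℕ → ℝ} {a : ι → ℝ}
    (h : ∀ i ∈ F, HasLogPole (c i) (a i)) :
    HasLogPole (fun n => ∑ i ∈ F, c i n) (∑ i ∈ F, a i) := by
  classical
  induction F using Finset.induction_on with
  | empty => exact zero.congr (fun n => by simp) (by simp)
  | @insert i F hi ih =>
    exact ((h i (Finset.mem_insert_self i F)).add
      (ih fun j hj => h j (Finset.mem_insert_of_mem hj))).congr
      (fun n => by rw [Finset.sum_insert hi]) (by rw [Finset.sum_insert hi])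

/-- A finitely supported series has no pole. -/
theorem of_finite_support (B : ℕ) (hc : ∀ n, B < n → c n = 0) : HasLogPole c 0 := by
  refine ⟨∑ n ∈ Finset.range (B + 1), |c n|, ?_⟩
  filter_upwards [self_mem_nhdsWithin] with s (hs : 1 < s)
  have hsup : ∀ n ∉ Finset.range (B + 1), c n * (n : ℝ) ^ (-s) = 0 := fun n hn => by
    rw [hc n (by simpa using hn), zero_mul]
  refine ⟨summable_of_ne_finset_zero hsup, ?_⟩
  rw [tsum_eq_sum hsup, zero_mul, add_zero]
  refine (Finset.abs_sum_le_sum_abs _ _).trans (Finset.sum_le_sum fun n _ => ?_)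
  rw [abs_mul]
  refine mul_le_of_le_one_right (abs_nonneg _) ?_
  rw [abs_of_nonneg (Real.rpow_nonneg (Nat.cast_nonneg n) _)]
  rcases Nat.eq_zero_or_pos n with rfl | hn
  · rw [Nat.cast_zero, Real.zero_rpow (by linarith)]; exact zero_le_one
  · exact Real.rpow_le_one_of_one_le_of_nonpos (by exact_mod_cast hn) (by linarith)

/-- A series with a genuine pole has infinitely many nonzero coefficients. -/
theorem exists_gt (h : HasLogPole c a) (ha : a ≠ 0) (B : ℕ) : ∃ n, B < n ∧ c n ≠ 0 := by
  by_contra hne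
  push Not at hne
  obtain ⟨C, hC⟩ := h
  obtain ⟨C', hC'⟩ := of_finite_support B hne
  have ht : Tendsto (fun s : ℝ => |a * Real.log (s - 1)|) (𝓝[>] (1 : ℝ)) atTop := by
    simp only [abs_mul]
    refine Tendsto.const_mul_atTop (abs_pos.mpr ha) ?_
    refine (tendsto_abs_atBot_atTop.comp (Real.tendsto_log_nhdsGT_zero)).comp ?_
    rw [tendsto_nhdsWithin_iff]
    refine ⟨?_, eventually_nhdsWithin_of_forall fun s (hs : 1 < s) => sub_pos.mpr hs⟩
    have h1 : Continuous fun s : ℝ => s - 1 := by fun_prop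
    simpa using (h1.tendsto 1).mono_left nhdsWithin_le_nhds
  obtain ⟨s, ⟨-, h1⟩, ⟨-, h2⟩, h3⟩ :=
    (hC.and (hC'.and (ht.eventually (eventually_gt_atTop (C + C'))))).exists
  rw [zero_mul, add_zero] at h2
  have h4 : |a * Real.log (s - 1)| ≤ C + C' := by
    calc |a * Real.log (s - 1)| = |((∑' n, c n * (n : ℝ) ^ (-s)) + a * Real.log (s - 1)) -
        (∑' n, c n * (n : ℝ) ^ (-s))| := by rw [add_sub_cancel_left]
      _ ≤ _ := (abs_sub _ _).trans (add_le_add h1 h2)
  linarith

end HasLogPole

/-- The number of primes of `K` of norm `n`, if `n` is prime, and zero otherwise. -/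
def degOneCount (K : Type*) [Field K] [NumberField K] (n : ℕ) : ℝ :=
  if n.Prime then (Nat.card {𝔭 : PrimeId K // Ideal.absNorm 𝔭.1 = n} : ℝ) else 0

/-- The series over degree one primes has a logarithmic singularity of weight one. -/
theorem hasLogPole_degOneCount (K : Type*) [Field K] [NumberField K] :
    HasLogPole (degOneCount K) 1 := by
  classical
  obtain ⟨C, hC⟩ := degreeOne_asymptotic K
  refine ⟨C, ?_⟩
  filter_upwards [hC] with s ⟨h1, h2⟩
  let Q := {P : PrimeId K // (Ideal.absNorm P.1).Prime}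
  let N : Q → ℕ := fun P => Ideal.absNorm P.1.1
  have hfib : ∀ n : ℕ, HasSum (fun b : {P : Q // N P = n} => y K s b.1.1)
      (degOneCount K n * (n : ℝ) ^ (-s)) := by
    intro n
    have : Finite {I : Ideal (𝓞 K) // Ideal.absNorm I = n} :=
      (Ideal.finite_setOfPred_absNorm_eq n).to_subtype
    have : Finite {P : Q // N P = n} :=
      Finite.of_injective (β := {I : Ideal (𝓞 K) // Ideal.absNorm I = n})
        (fun b => ⟨b.1.1.1, b.2⟩)
        fun b b' h => Subtype.ext (Subtype.ext (Subtype.ext (congrArg Subtype.val h :)))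
    have := Fintype.ofFinite {P : Q // N P = n}
    have hval : ∀ b : {P : Q // N P = n}, y K s b.1.1 = (n : ℝ) ^ (-s) := fun b => by
      show (Ideal.absNorm b.1.1.1 : ℝ) ^ (-s) = _
      rw [show Ideal.absNorm b.1.1.1 = n from b.2]
    convert hasSum_fintype (fun b : {P : Q // N P = n} => y K s b.1.1) using 1
    rw [Finset.sum_congr rfl (fun b _ => hval b), Finset.sum_const, Finset.card_univ,
      nsmul_eq_mul, ← Nat.card_eq_fintype_card, degOneCount]
    by_cases hn : n.Prime
    · rw [if_pos hn]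
      congr 2
      exact Nat.card_congr
        { toFun := fun P => ⟨⟨P.1, by rw [P.2]; exact hn⟩, P.2⟩
          invFun := fun b => ⟨b.1.1, b.2⟩
          left_inv := fun P => rfl
          right_inv := fun b => rfl }
    · have : IsEmpty {P : Q // N P = n} := ⟨fun b => hn (b.2 ▸ b.1.2)⟩
      rw [if_neg hn, Nat.card_of_isEmpty, Nat.cast_zero]
  have h3 : HasSum (fun n => degOneCount K n * (n : ℝ) ^ (-s)) (∑' P : Q, y K s P.1) := by
    have h4 : HasSum (fun x : Σ n, {P : Q // N P = n} => y K s x.2.1.1) (∑' P : Q, y K s P.1) :=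
      ((Equiv.sigmaFiberEquiv N).hasSum_iff (f := fun P : Q => y K s P.1)).mpr h1.hasSum
    exact h4.sigma hfib
  refine ⟨h3.summable, ?_⟩
  rw [h3.tsum_eq, one_mul]
  exact h2

end Fermat.Agent.Arith.Density
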