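import Mathlib.RingTheory.Ideal.Norm.AbsNorm
import Mathlib.Tactic

/-!
# The Euler product of the Dedekind zeta function, with values in `ℝ≥0∞`
-/

set_option autoImplicit false

noncomputable section

namespace Fermat.Agent.Arith.Density

open scoped ENNReal NumberField
open Filter

section Geom

variable {ι : Type*}

/-- Sum over multisets supported on a finite set of the product of the weights. -/
theorem tsum_multiset_eq_prod [DecidableEq ι] (x : ι → ℝ≥0∞) (F : Finset ι) :
    ∑' m : {m : Multiset ι // ∀ i ∈ m, i ∈ F}, ((m : Multiset ι).map x).prod =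
      ∏ i ∈ F, (1 - x i)⁻¹ := by
  induction F using Finset.induction_on with
  | empty =>
    rw [Finset.prod_empty, tsum_eq_single ⟨0, fun i hi => absurd hi (Multiset.notMem_zero i)⟩
      (fun (m : {m : Multiset ι // ∀ i ∈ m, i ∈ (∅ : Finset ι)}) hm =>
        absurd (Subtype.ext (Multiset.eq_zero_of_forall_notMem fun i hi =>
        Finset.notMem_empty i (m.2 i hi))) hm)]
    simp
  | @insert a F ha ih =>
    let e : {m : Multiset ι // ∀ i ∈ m, i ∈ insert a F} ≃
        ℕ × {m : Multiset ι // ∀ i ∈ m, i ∈ F} :=
      { toFun := fun m => ⟨Multiset.count a m.1, ⟨Multiset.filter (fun i => i ≠ a) m.1, fun i hi =>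
          (Finset.mem_insert.mp (m.2 i (Multiset.mem_of_mem_filter hi))).resolve_left
            (Multiset.of_mem_filter (p := fun i => i ≠ a) hi)⟩⟩
        invFun := fun p => ⟨Multiset.replicate p.1 a + p.2.1, fun i hi => by
          rcases Multiset.mem_add.mp hi with h | h
          · exact Finset.mem_insert.mpr (Or.inl (Multiset.eq_of_mem_replicate h))
          · exact Finset.mem_insert_of_mem (p.2.2 i h)⟩
        left_inv := fun m => Subtype.ext (Multiset.ext.mpr fun b => by
          by_cases hb : b = a
          · subst hb; simp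
          · simp [Multiset.count_replicate, hb, Ne.symm hb])
        right_inv := fun ⟨k, ⟨m, hm⟩⟩ => by
          have ha' : a ∉ m := fun h => ha (hm a h)
          refine Prod.ext (by simp [Multiset.count_eq_zero.mpr ha']) (Subtype.ext ?_)
          simp only [Multiset.filter_add]
          rw [Multiset.filter_eq_nil.mpr (fun i hi => by simp [Multiset.eq_of_mem_replicate hi]),
            zero_add]
          exact Multiset.filter_eq_self.mpr fun i hi h => ha' (h ▸ hi) }
    rw [← e.symm.tsum_eq, ENNReal.tsum_prod', Finset.prod_insert ha, ← ih, ← ENNReal.tsum_geometric,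
      ← ENNReal.tsum_mul_right]
    refine tsum_congr fun k => ?_
    rw [← ENNReal.tsum_mul_left]
    refine tsum_congr fun m => ?_
    simp [e, Multiset.map_add, Multiset.prod_add, Multiset.map_replicate, Multiset.prod_replicate]

theorem tsum_multiset_eq_iSup [DecidableEq ι] (x : ι → ℝ≥0∞) :
    ∑' m : Multiset ι, (m.map x).prod = ⨆ F : Finset ι, ∏ i ∈ F, (1 - x i)⁻¹ := by
  refine le_antisymm ?_ (iSup_le fun F => ?_)
  · rw [ENNReal.tsum_eq_iSup_sum]
    refine iSup_le fun s => le_iSup_of_le (s.biUnion fun m => m.toFinset) ?_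
    rw [← tsum_multiset_eq_prod]
    calc ∑ m ∈ s, (m.map x).prod
        = ∑ m ∈ s.attach, ((m : Multiset ι).map x).prod := (Finset.sum_attach s _).symm
      _ = ∑ m ∈ s.attach.map ⟨fun m => (⟨m.1, fun i hi => Finset.mem_biUnion.mpr
            ⟨m.1, m.2, Multiset.mem_toFinset.mpr hi⟩⟩ :
              {m : Multiset ι // ∀ i ∈ m, i ∈ s.biUnion fun m => m.toFinset}),
            fun m m' h => Subtype.ext (by simpa using h)⟩, (m.1.map x).prod := by
          rw [Finset.sum_map]; rfl
      _ ≤ _ := ENNReal.sum_le_tsum _
  · rw [← tsum_multiset_eq_prod]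
    exact ENNReal.tsum_comp_le_tsum_of_injective Subtype.val_injective fun m : Multiset ι =>
      (m.map x).prod

end Geom

section NumberField

open UniqueFactorizationMonoid

variable (K : Type*) [Field K] [NumberField K]

/-- The nonzero prime ideals of the ring of integers. -/
abbrev PrimeId : Type _ := {P : Ideal (𝓞 K) // P.IsPrime ∧ P ≠ ⊥}

/-- The weight `N(I)^{-s}` of an ideal. -/
def weight (s : ℝ) (I : Ideal (𝓞 K)) : ℝ≥0∞ :=
  ENNReal.ofReal ((Ideal.absNorm I : ℝ) ^ (-s))

theorem weight_mul (s : ℝ) (I J : Ideal (𝓞 K)) :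
    weight K s (I * J) = weight K s I * weight K s J := by
  rw [weight, weight, weight, map_mul, Nat.cast_mul,
    Real.mul_rpow (Nat.cast_nonneg _) (Nat.cast_nonneg _),
    ENNReal.ofReal_mul (Real.rpow_nonneg (Nat.cast_nonneg _) _)]

theorem weight_prod (s : ℝ) (m : Multiset (Ideal (𝓞 K))) :
    weight K s m.prod = (m.map (weight K s)).prod := by
  induction m using Multiset.induction with
  | empty => simp [weight]
  | cons a m ih => simp [weight_mul, ih]

theorem primeId_prime (P : PrimeId K) : Prime P.1 := Ideal.prime_of_isPrime P.2.2 P.2.1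

/-- Unique factorisation as a bijection. -/
def multisetEquiv : Multiset (PrimeId K) ≃ {I : Ideal (𝓞 K) // I ≠ 0} :=
  Equiv.ofBijective (fun m => ⟨(m.map Subtype.val).prod, by
      intro h
      rw [Multiset.prod_eq_zero_iff] at h
      obtain ⟨P, -, hP⟩ := Multiset.mem_map.mp h
      exact (primeId_prime K P).ne_zero hP⟩) <| by
    constructor
    · intro m m' h
      have h' := congrArg Subtype.val h
      have key : ∀ t : Multiset (PrimeId K),
          normalizedFactors (t.map Subtype.val).prod = t.map Subtype.val := fun t =>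
        normalizedFactors_prod_of_prime fun P hP => by
          obtain ⟨Q, -, rfl⟩ := Multiset.mem_map.mp hP
          exact primeId_prime K Q
      have := key m
      rw [show (m.map Subtype.val).prod = (m'.map Subtype.val).prod from h', key m'] at this
      exact (Multiset.map_injective Subtype.val_injective this).symm
    · rintro ⟨I, hI⟩
      refine ⟨(normalizedFactors I).pmap Subtype.mk fun P hP =>
        ⟨Ideal.isPrime_of_prime (prime_of_normalized_factor P hP),
          (prime_of_normalized_factor P hP).ne_zero⟩, Subtype.ext ?_⟩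
      show (Multiset.map Subtype.val _).prod = I
      rw [Multiset.map_pmap, Multiset.pmap_eq_map, Multiset.map_id']
      exact (associated_iff_eq.mp (prod_normalizedFactors hI))

/-- Euler product of the Dedekind zeta function, with values in `ℝ≥0∞`. -/
theorem tsum_weight_eq_iSup [DecidableEq (PrimeId K)] (s : ℝ) :
    ∑' I : {I : Ideal (𝓞 K) // I ≠ 0}, weight K s I.1 =
      ⨆ F : Finset (PrimeId K), ∏ P ∈ F, (1 - weight K s P.1)⁻¹ := by
  rw [← tsum_multiset_eq_iSup, ← (multisetEquiv K).tsum_eq]
  refine tsum_congr fun m => ?_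
  show weight K s (m.map Subtype.val).prod = _
  rw [weight_prod, Multiset.map_map]
  rfl

end NumberField

end Fermat.Agent.Arith.Density
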